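/-
P-CFT / LOCAL, row 838 (BR-DIV), helper32:
`brauerDiv : InvExistsStatement → InvCompatStatement → BrauerDivStatement`.

The Brauer group of a local field is `p`-divisible: every level 2-cocycle `c` of `G_E` with
values in `ℚ̄ˣ` is cohomologous, through level cochains, to the `p`-th power of a level 2-cocycle.

Proof.  `c` is inflated from a finite Galois `F / E`, so `c ^ N` is a level coboundary for
`N = [F : E] = p^a N'`, `p ∤ N'`.  `c₁ = c ^ N'` is killed by `p^a`, so it has an invariant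
`j / p^a = j p / p^(a+1)`: `c₁ ~ u ^ (j p)`, `u` the unramified cocycle of degree `p^(a+1)`.  With
`s N' + t p = 1`: `c = c₁ ^ s (c ^ t) ^ p ~ (u ^ (j s) c ^ t) ^ p`.
-/
import Fermat.Agent.H78.CFT.LocalInvRows
import Fermat.Agent.H75.Inf2Lvl
import Fermat.Agent.H75.Coh2Res
import Fermat.Agent.H61.CFT.UnramBrauerH2
import Fermat.Agent.H81.Local.Infl

set_option autoImplicit false
set_option synthInstance.maxHeartbeats 400000
set_option linter.style.haveILetI false

namespace Fermat.Agent.H32.CFT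

open Fermat.Agent.H13.Cft Fermat.Agent.H78.CFT groupCohomology
open Fermat.Agent.H49.Unram Fermat.Agent.H61.CFT Fermat.Agent.H81.Local

/-! ### closure properties of level cochains, cocycles and coboundaries -/

section closure

variable {E : IntermediateField ℚ Qb}

theorem isLvlFun₂_comp {M M' : Type} {c : E.fixingSubgroup × E.fixingSubgroup → M}
    (h : IsLvlFun₂ (lvlE E) c) (f : M → M') : IsLvlFun₂ (lvlE E) (fun x => f (c x)) := by
  obtain ⟨N, hN, hc⟩ := h
  exact ⟨N, hN, fun g h n hn m hm => congrArg f (hc g h n hn m hm)⟩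

theorem isLvlFun₂_mul {c c' : E.fixingSubgroup × E.fixingSubgroup → Qbˣ}
    (h : IsLvlFun₂ (lvlE E) c) (h' : IsLvlFun₂ (lvlE E) c') :
    IsLvlFun₂ (lvlE E) (fun x => c x * c' x) := by
  obtain ⟨N, hN, hc⟩ := h
  obtain ⟨N', hN', hc'⟩ := h'
  obtain ⟨N'', hN'', hle⟩ := (lvlE E).directed N hN N' hN'
  refine ⟨N'', hN'', fun g h n hn m hm => ?_⟩
  show c (g * n, h * m) * c' (g * n, h * m) = c (g, h) * c' (g, h)
  rw [hc g h n (hle hn).1 m (hle hm).1, hc' g h n (hle hn).2 m (hle hm).2]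

theorem isLvlFun₂_zpow {c : E.fixingSubgroup × E.fixingSubgroup → Qbˣ}
    (h : IsLvlFun₂ (lvlE E) c) (k : ℤ) : IsLvlFun₂ (lvlE E) (fun x => c x ^ k) :=
  isLvlFun₂_comp h (fun u => u ^ k)

theorem isLvlFun₂_pow {c : E.fixingSubgroup × E.fixingSubgroup → Qbˣ}
    (h : IsLvlFun₂ (lvlE E) c) (k : ℕ) : IsLvlFun₂ (lvlE E) (fun x => c x ^ k) :=
  isLvlFun₂_comp h (fun u => u ^ k)

theorem isMulCocycle₂E_mul {c c' : E.fixingSubgroup × E.fixingSubgroup → Qbˣ}
    (h : IsMulCocycle₂E E c) (h' : IsMulCocycle₂E E c') :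
    IsMulCocycle₂E E (fun x => c x * c' x) := by
  intro g k j
  show c (g * k, j) * c' (g * k, j) * (c (g, k) * c' (g, k))
    = actU (g : Qb ≃ₐ[ℚ] Qb) (c (k, j) * c' (k, j)) * (c (g, k * j) * c' (g, k * j))
  rw [map_mul, mul_mul_mul_comm, h g k j, h' g k j, mul_mul_mul_comm]

theorem isMulCocycle₂E_zpow {c : E.fixingSubgroup × E.fixingSubgroup → Qbˣ}
    (h : IsMulCocycle₂E E c) (n : ℤ) : IsMulCocycle₂E E (fun x => c x ^ n) := by
  intro g k j
  show c (g * k, j) ^ n * c (g, k) ^ n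
    = actU (g : Qb ≃ₐ[ℚ] Qb) (c (k, j) ^ n) * c (g, k * j) ^ n
  rw [map_zpow, ← mul_zpow, ← mul_zpow, h g k j]

theorem isMulCocycle₂E_pow {c : E.fixingSubgroup × E.fixingSubgroup → Qbˣ}
    (h : IsMulCocycle₂E E c) (n : ℕ) : IsMulCocycle₂E E (fun x => c x ^ n) := by
  intro g k j
  show c (g * k, j) ^ n * c (g, k) ^ n
    = actU (g : Qb ≃ₐ[ℚ] Qb) (c (k, j) ^ n) * c (g, k * j) ^ n
  rw [map_pow, ← mul_pow, ← mul_pow, h g k j]

theorem isLvlMulCoboundary₂E_congr {c c' : E.fixingSubgroup × E.fixingSubgroup → Qbˣ}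
    (h : IsLvlMulCoboundary₂E E c) (e : ∀ x, c x = c' x) : IsLvlMulCoboundary₂E E c' := by
  have : c = c' := funext e
  rw [← this]
  exact h

theorem isLvlMulCoboundary₂E_pow {c : E.fixingSubgroup × E.fixingSubgroup → Qbˣ}
    (h : IsLvlMulCoboundary₂E E c) (n : ℕ) : IsLvlMulCoboundary₂E E (fun x => c x ^ n) := by
  induction n with
  | zero =>
    exact isLvlMulCoboundary₂E_congr (isLvlMulCoboundary₂E_one E) (fun x => (pow_zero _).symm)
  | succ n ih =>
    exact isLvlMulCoboundary₂E_congr (ih.mul h) (fun x => (pow_succ _ _).symm)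

theorem isLvlMulCoboundary₂E_zpow {c : E.fixingSubgroup × E.fixingSubgroup → Qbˣ}
    (h : IsLvlMulCoboundary₂E E c) (n : ℤ) : IsLvlMulCoboundary₂E E (fun x => c x ^ n) := by
  cases n with
  | ofNat n =>
    exact isLvlMulCoboundary₂E_congr (isLvlMulCoboundary₂E_pow h n)
      (fun x => (zpow_natCast _ _).symm)
  | negSucc n =>
    exact isLvlMulCoboundary₂E_congr (isLvlMulCoboundary₂E_pow h (n + 1)).inv
      (fun x => (zpow_negSucc _ _).symm)

end closure

/-! ### inflations -/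

section infl

variable (E : IntermediateField ℚ Qb)

/-- Inflations from a finite normal extension are level cochains. -/
theorem isLvlFun₂_inflE (F : IntermediateField E Qb) [FiniteDimensional E F] [Normal E F]
    (c : (F ≃ₐ[E] F) × (F ≃ₐ[E] F) → Fˣ) : IsLvlFun₂ (lvlE E) (inflE E F c) := by
  refine ⟨(resEF E F).ker, ker_resEF_mem_lvlE E F, fun g h n hn m hm => ?_⟩
  show Units.map (algebraMap F Qb : F →* Qb) (c (resEF E F (g * n), resEF E F (h * m)))
    = Units.map (algebraMap F Qb : F →* Qb) (c (resEF E F g, resEF E F h))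
  rw [map_mul, map_mul, MonoidHom.mem_ker.1 hn, MonoidHom.mem_ker.1 hm, mul_one, mul_one]

/-- Inflations of cocycles are cocycles. -/
theorem isMulCocycle₂E_inflE (F : IntermediateField E Qb) [Normal E F]
    (c : (F ≃ₐ[E] F) × (F ≃ₐ[E] F) → Fˣ) (hc : IsMulCocycle₂ c) :
    IsMulCocycle₂E E (inflE E F c) :=
  fun g h j => Fermat.Agent.H75.Inf2.inflE_cocycle E F c hc g h j

/-- Every level 2-cocycle of `G_E` has finite order modulo level coboundaries. -/
theorem exists_pow_isLvlMulCoboundary₂E (c : E.fixingSubgroup × E.fixingSubgroup → Qbˣ)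
    (hl : IsLvlFun₂ (lvlE E) c) (hc : IsMulCocycle₂E E c) :
    ∃ N : ℕ, 0 < N ∧ IsLvlMulCoboundary₂E E (fun x => c x ^ N) := by
  obtain ⟨F, hfd, hgal, c', hc', rfl⟩ := Fermat.Agent.H75.Inf2.lvl2Finite E c hl hc
  refine ⟨Nat.card (F ≃ₐ[E] F), Nat.card_pos, ?_⟩
  have h0 := Fermat.Agent.H75.Coh2.card_smul_H2_eq_zero
    (Rep.ofMulDistribMulAction (F ≃ₐ[E] F) Fˣ) (h2Class hc')
  rw [← natCast_zsmul, zsmul_h2Class_eq_zero_iff hc'] at h0
  have h1 : IsMulCoboundary₂ (fun x => c' x ^ (Nat.card (F ≃ₐ[E] F))) :=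
    isMulCoboundary₂_congr (fun x => zpow_natCast _ _) h0
  have h2 := inflCoboundary E F _ h1
  refine isLvlMulCoboundary₂E_congr h2 (fun x => ?_)
  show Units.map (algebraMap F Qb : F →* Qb)
      (c' (resEF E F x.1, resEF E F x.2) ^ Nat.card (F ≃ₐ[E] F))
    = Units.map (algebraMap F Qb : F →* Qb) (c' (resEF E F x.1, resEF E F x.2))
      ^ Nat.card (F ≃ₐ[E] F)
  rw [map_pow]

end infl

/-! ### the unramified cocycle -/

section unram

variable {q : ℕ} [Fact q.Prime] {E : IntermediateField ℚ Qb} {m : ℕ}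
  {φ : unramExt q E m ≃ₐ[E] unramExt q E m}

theorem isMulCocycle₂_std_of_isFrobE (hφ : IsFrobE q E m φ) (a : Eˣ) :
    IsMulCocycle₂ (stdCocycle φ (unitOfE q E m a)) := by
  haveI := hφ.finiteDimensional
  haveI := hφ.isGalois
  have hg : IsGen φ := isGen_of_forall_mem_zpowers hφ.gen
  exact isMulCocycle₂_stdCocycle_unitsIncl hg a

/-- The unramified cocycle is a level cochain. -/
theorem isLvlFun₂_unramCocycle (hφ : IsFrobE q E m φ) (a : Eˣ) :
    IsLvlFun₂ (lvlE E) (unramCocycle q E m φ a) := by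
  haveI := hφ.finiteDimensional
  exact isLvlFun₂_inflE E (unramExt q E m) _

/-- The unramified cocycle is a cocycle. -/
theorem isMulCocycle₂E_unramCocycle (hφ : IsFrobE q E m φ) (a : Eˣ) :
    IsMulCocycle₂E E (unramCocycle q E m φ a) :=
  isMulCocycle₂E_inflE E (unramExt q E m) _ (isMulCocycle₂_std_of_isFrobE hφ a)

end unram

/-! ### the main statement -/

/-- The identity behind the proof, in a commutative group. -/
theorem brauerDiv_identity {G : Type} [CommGroup G] (c u : G) (N' p : ℕ) (j s t : ℤ)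
    (h : s * N' + t * p = 1) :
    c / (u ^ (j * s) * c ^ t) ^ p = (c ^ N' / u ^ (j * p)) ^ s := by
  have h1 : c = c ^ ((N' : ℤ) * s) * c ^ (t * p) := by
    rw [← zpow_add, show (N' : ℤ) * s + t * p = 1 by linarith, zpow_one]
  rw [div_zpow, ← zpow_natCast c N', ← zpow_mul, ← zpow_mul, ← zpow_natCast _ p, mul_zpow,
    ← zpow_mul, ← zpow_mul, show j * s * (p : ℤ) = j * p * s by ring]
  rw [div_eq_div_iff_mul_eq_mul]
  nth_rewrite 1 [h1]
  rw [mul_assoc, mul_comm (c ^ (t * (p : ℤ)))]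

/-- **[BR-DIV]** (row 838): the Brauer group of a local field is `p`-divisible. -/
theorem brauerDiv (hEx : InvExistsStatement) (hCompat : InvCompatStatement) :
    BrauerDivStatement := by
  intro p _ q _ E hE c hl hc
  have hp : p.Prime := Fact.out
  obtain ⟨N, hN, hcN⟩ := exists_pow_isLvlMulCoboundary₂E E c hl hc
  obtain ⟨a, N', hN'p, hNeq⟩ := Nat.exists_eq_pow_mul_and_not_dvd hN.ne' p hp.ne_one
  -- the `p`-primary part
  have hc1l : IsLvlFun₂ (lvlE E) (fun x => c x ^ N') := isLvlFun₂_pow hl N'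
  have hc1c : IsMulCocycle₂E E (fun x => c x ^ N') := isMulCocycle₂E_pow hc N'
  have hc1k : IsLvlMulCoboundary₂E E (fun x => (c x ^ N') ^ (p ^ a)) :=
    isLvlMulCoboundary₂E_congr hcN (fun x => by rw [← pow_mul, hNeq, mul_comm])
  obtain ⟨j, hj⟩ := hEx p q E hE a (fun x => c x ^ N') hc1l hc1c hc1k
  obtain ⟨π, φ, hπ, hφ, hcob⟩ := hCompat q E hE (p ^ a) p hp.pos (fun x => c x ^ N') j hj
  -- Bezout
  have hcop : IsCoprime (N' : ℤ) (p : ℤ) :=
    Nat.isCoprime_iff_coprime.mpr ((Nat.Prime.coprime_iff_not_dvd hp).mpr hN'p).symm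
  obtain ⟨s, t, hst⟩ := hcop
  refine ⟨fun x => unramCocycle q E (p ^ a * p) φ π x ^ (j * s) * c x ^ t,
    isLvlFun₂_mul (isLvlFun₂_zpow (isLvlFun₂_unramCocycle hφ π) _) (isLvlFun₂_zpow hl t),
    isMulCocycle₂E_mul (isMulCocycle₂E_zpow (isMulCocycle₂E_unramCocycle hφ π) _)
      (isMulCocycle₂E_zpow hc t), ?_⟩
  refine isLvlMulCoboundary₂E_congr (isLvlMulCoboundary₂E_zpow hcob s) (fun x => ?_)
  exact (brauerDiv_identity (c x) (unramCocycle q E (p ^ a * p) φ π x) N' p j s t hst).symm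

end Fermat.Agent.H32.CFT
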