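/-
P-CFT / LOCAL, block LOC-6, row 919 (BR-UNRAM-a), helper32:
`unramOrder : Fermat.Agent.H24.Brauer.UnramOrderStatement`.

The unramified cocycle `u_n = stdCocycle φ π` of degree `n` of a uniformizer `π` of `E` is a
2-cocycle, and `u_n ^ m` is a coboundary only if `n ∣ m` (helper61's `unramClassP` in degree `n`,
for a GIVEN uniformizer).
-/
import Fermat.Agent.H24.Brauer.UnramInterfaces
import Fermat.Agent.H61.CFT.UnramH78
import Fermat.Agent.H78.CFT.LocalNormIndex

set_option autoImplicit false
set_option linter.style.haveILetI false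
set_option synthInstance.maxHeartbeats 400000

noncomputable section

open groupCohomology

namespace Fermat.Agent.H32.CFT

open Fermat.Agent.H78.CFT Fermat.Agent.H81.Local Fermat.Agent.H49.Unram Fermat.Agent.H24.Brauer
open Fermat.Agent.H61.CFT

/-- A uniformizer of `E` in the sense of `IsUnif` is a uniformizer for the restriction of the
valuation of any intermediate field. -/
theorem isUnifVal_of_isUnif {q : ℕ} [Fact q.Prime] {E : IntermediateField ℚ Qb}
    (F : IntermediateField E Qb) {π : Eˣ} (hπ : IsUnif q E ((π : E) : Qb)) :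
    IsUnifVal (qValOn q F) (π : E) :=
  ⟨π.ne_zero, hπ.2.2.1, fun x hx => hπ.2.2.2 (x : Qb) x.2 (fun h => hx (Subtype.ext h))⟩

/-- **[BR-UNRAM a]** (row 919). -/
theorem unramOrder : UnramOrderStatement := by
  intro q _ E hE n hn φ hφ π hπ
  haveI : FiniteDimensional E (unramExt q E n) := hφ.finiteDimensional
  haveI : IsGalois E (unramExt q E n) := hφ.isGalois
  have hd := localNormDatum_unramExt hE hn
  have hur : IsUnramVal E (qValOn q (unramExt q E n)) := by
    intro x hx
    obtain ⟨y, hy⟩ := hφ.unram x hx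
    refine ⟨y, ?_, hy⟩
    rintro rfl
    have h0 : qValOn q (unramExt q E n) x = 0 := by
      rw [qValOn_apply, hy, map_zero, map_zero]
    exact hx ((map_eq_zero _).1 h0)
  have hg : IsGen φ := isGen_of_forall_mem_zpowers hφ.gen
  haveI : IsCyclic (unramExt q E n ≃ₐ[E] unramExt q E n) := ⟨⟨φ, hφ.gen⟩⟩
  have hidx := index_normSubgp_of_normIndex normIndex hd
  have hfr : Module.finrank E (unramExt q E n) = n := hφ.finrank_eq
  have hπ' : IsUnifVal (qValOn q (unramExt q E n)) (π : E) :=
    isUnifVal_of_isUnif (unramExt q E n) hπ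
  have hu : unifUnit hπ' = unitOfE q E n π := Units.ext rfl
  refine ⟨isMulCocycle₂_stdCocycle_unitsIncl hg π, fun m hm => ?_⟩
  have h1 := (isMulCoboundary₂_unif_zpow_iff hg hd.galois_inv hur hπ' hidx m).1
    (isMulCoboundary₂_congr (fun x => by rw [hu, stdCocycle_zpow]) hm)
  rw [hfr] at h1
  exact h1

end Fermat.Agent.H32.CFT

end
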